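/-
S52P (3-5 switch) / Klein data: DEFINITIONS.
`X = x⁵`, `Y = y⁵`; `H = eta X Y`, `T = theta X Y`, `f = x y phi X Y`, `f_y = x kA X Y`, `f_x = y kB X Y`;
`famH e h m n = H(m u₀ + n w)`, `famT = T(m u₀ + n w)`, `famD = f(m u₀ + n w)/f(u₀)` for `w = (f_y(u₀), -f_x(u₀))`,
`e = H(u₀)`, `h = T(u₀)`;  `xP`, `y3` : a point of order 5 on `y² = x³ - 16875 H x - 843750 T` (`g² = g + 1`).
Machine-generated by helper23 (exact integer arithmetic, script-checked before Lean).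
-/
import Mathlib

set_option autoImplicit false
set_option maxHeartbeats 0
set_option maxRecDepth 20000

namespace Fermat.Agent.S52P.Klein

variable {R : Type*} [CommRing R]

/-- Klein's `H` in `X = x⁵`, `Y = y⁵`. -/
def eta (X Y : R) : R := X ^ 4 - 228 * X ^ 3 * Y + 494 * X ^ 2 * Y ^ 2 + 228 * X * Y ^ 3 + Y ^ 4

/-- Klein's `T` in `X = x⁵`, `Y = y⁵`. -/
def theta (X Y : R) : R :=
  X ^ 6 + 522 * X ^ 5 * Y - 10005 * X ^ 4 * Y ^ 2 - 10005 * X ^ 2 * Y ^ 4 - 522 * X * Y ^ 5 + Y ^ 6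

/-- `f = x y φ(x⁵, y⁵)`. -/
def phi (X Y : R) : R := X ^ 2 + 11 * X * Y - Y ^ 2

/-- `f_y = x * kA(x⁵, y⁵)`. -/
def kA (X Y : R) : R := X ^ 2 + 66 * X * Y - 11 * Y ^ 2

/-- `f_x = y * kB(x⁵, y⁵)`. -/
def kB (X Y : R) : R := 11 * X ^ 2 + 66 * X * Y - Y ^ 2

/-- `x`-coordinate of a point of order 5 on `y² = x³ - 16875 H x - 843750 T` (`g² = g + 1`). -/
def xP (g X Y : R) : R :=
  15 * ((31 - 12 * g) * X ^ 2 + (66 - 132 * g) * X * Y + (19 + 12 * g) * Y ^ 2)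

/-- its `y`-coordinate is `2700 ρ y3`, `ρ² = 18 - 11 g`. -/
def y3 (g X Y : R) : R :=
  X ^ 3 + (14 + 5 * g) * X ^ 2 * Y + (32 + 55 * g) * X * Y ^ 2 - (3 + 5 * g) * Y ^ 3

/-- the 5-division polynomial `preΨ₅ = preΨ₄ Ψ₂Sq² - Ψ₃³` of `y² = x³ + a₄ x + a₆`. -/
def psi5 (x a₄ a₆ : R) : R :=
  (2 * x ^ 6 + 10 * a₄ * x ^ 4 + 40 * a₆ * x ^ 3 - 10 * a₄ ^ 2 * x ^ 2 - 8 * a₄ * a₆ * x
      - 2 * a₄ ^ 3 - 16 * a₆ ^ 2) * (4 * x ^ 3 + 4 * a₄ * x + 4 * a₆) ^ 2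
    - (3 * x ^ 4 + 6 * a₄ * x ^ 2 + 12 * a₆ * x - a₄ ^ 2) ^ 3

/-- the quartic whose rational roots are `12 x + b₂` for `x` the abscissa of a rational 3-isogeny kernel. -/
def quart3 (c₄ c₆ z : R) : R := z ^ 4 - 6 * c₄ * z ^ 2 - 8 * c₆ * z - 3 * c₄ ^ 2

/-- coefficient of `n ^ 0 * m ^ 20` in `H(m u₀ + n w)`. -/
def gh0 (e _h : R) : R := 1 * e

/-- coefficient of `n ^ 1 * m ^ 19` in `H(m u₀ + n w)`. -/
def gh1 (_e h : R) : R := 20 * h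

/-- coefficient of `n ^ 2 * m ^ 18` in `H(m u₀ + n w)`. -/
def gh2 (e _h : R) : R := 190 * e ^ 2

/-- coefficient of `n ^ 3 * m ^ 17` in `H(m u₀ + n w)`. -/
def gh3 (e h : R) : R := 1140 * e * h

/-- coefficient of `n ^ 4 * m ^ 16` in `H(m u₀ + n w)`. -/
def gh4 (e h : R) : R := 5700 * h ^ 2 + (-855) * e ^ 3

/-- coefficient of `n ^ 5 * m ^ 15` in `H(m u₀ + n w)`. -/
def gh5 (e h : R) : R := 15504 * e ^ 2 * h

/-- coefficient of `n ^ 6 * m ^ 14` in `H(m u₀ + n w)`. -/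
def gh6 (e h : R) : R := (-63840) * e * h ^ 2 + 102600 * e ^ 4

/-- coefficient of `n ^ 7 * m ^ 13` in `H(m u₀ + n w)`. -/
def gh7 (e h : R) : R := (-182400) * h ^ 3 + 259920 * e ^ 3 * h

/-- coefficient of `n ^ 8 * m ^ 12` in `H(m u₀ + n w)`. -/
def gh8 (e h : R) : R := 1126320 * e ^ 2 * h ^ 2 + (-1000350) * e ^ 5

/-- coefficient of `n ^ 9 * m ^ 11` in `H(m u₀ + n w)`. -/
def gh9 (e h : R) : R := 7904000 * e * h ^ 3 + (-7736040) * e ^ 4 * h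

/-- coefficient of `n ^ 10 * m ^ 10` in `H(m u₀ + n w)`. -/
def gh10 (e h : R) : R := 15808000 * h ^ 4 + (-5619744) * e ^ 3 * h ^ 2 + (-10003500) * e ^ 6

/-- coefficient of `n ^ 11 * m ^ 9` in `H(m u₀ + n w)`. -/
def gh11 (e h : R) : R := 54853760 * e ^ 2 * h ^ 3 + (-54685800) * e ^ 5 * h

/-- coefficient of `n ^ 12 * m ^ 8` in `H(m u₀ + n w)`. -/
def gh12 (e h : R) : R := 37939200 * e * h ^ 4 + 7202520 * e ^ 4 * h ^ 2 + (-45015750) * e ^ 7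

/-- coefficient of `n ^ 13 * m ^ 7` in `H(m u₀ + n w)`. -/
def gh13 (e h : R) : R := 58368000 * h ^ 5 + (-23201280) * e ^ 3 * h ^ 3 + (-35089200) * e ^ 6 * h

/-- coefficient of `n ^ 14 * m ^ 6` in `H(m u₀ + n w)`. -/
def gh14 (e h : R) : R := 287462400 * e ^ 2 * h ^ 4 + (-495188640) * e ^ 5 * h ^ 2 + 207765000 * e ^ 8

/-- coefficient of `n ^ 15 * m ^ 5` in `H(m u₀ + n w)`. -/
def gh15 (e h : R) : R := 466944000 * e * h ^ 5 + (-882458496) * e ^ 4 * h ^ 3 + 415530000 * e ^ 7 * h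

/-- coefficient of `n ^ 16 * m ^ 4` in `H(m u₀ + n w)`. -/
def gh16 (e h : R) : R := 583680000 * h ^ 6 + (-1220474880) * e ^ 3 * h ^ 4 + 714711600 * e ^ 6 * h ^ 2 + (-77911875) * e ^ 9

/-- coefficient of `n ^ 17 * m ^ 3` in `H(m u₀ + n w)`. -/
def gh17 (e h : R) : R := 361881600 * e ^ 2 * h ^ 5 + (-715080960) * e ^ 5 * h ^ 3 + 353200500 * e ^ 8 * h

/-- coefficient of `n ^ 18 * m ^ 2` in `H(m u₀ + n w)`. -/
def gh18 (e h : R) : R := (-622592000) * e * h ^ 6 + 2026391040 * e ^ 4 * h ^ 4 + (-2182917600) * e ^ 7 * h ^ 2 + 779118750 * e ^ 10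

/-- coefficient of `n ^ 19 * m ^ 1` in `H(m u₀ + n w)`. -/
def gh19 (e h : R) : R := (-655360000) * h ^ 7 + 2005401600 * e ^ 3 * h ^ 5 + (-2044414080) * e ^ 6 * h ^ 3 + 694372500 * e ^ 9 * h

/-- coefficient of `n ^ 20 * m ^ 0` in `H(m u₀ + n w)`. -/
def gh20 (e h : R) : R := (-180224000) * e ^ 2 * h ^ 6 + 544997376 * e ^ 5 * h ^ 4 + (-549301500) * e ^ 8 * h ^ 2 + 184528125 * e ^ 11

/-- `H(m u₀ + n w)` as a form in `(m, n)` with coefficients in `e = H(u₀)`, `h = T(u₀)`. -/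
def famH (e h m n : R) : R :=
  gh0 e h * m ^ 20 + gh1 e h * n * m ^ 19 + gh2 e h * n ^ 2 * m ^ 18 + gh3 e h * n ^ 3 * m ^ 17
    + gh4 e h * n ^ 4 * m ^ 16 + gh5 e h * n ^ 5 * m ^ 15 + gh6 e h * n ^ 6 * m ^ 14 + gh7 e h * n ^ 7 * m ^ 13
    + gh8 e h * n ^ 8 * m ^ 12 + gh9 e h * n ^ 9 * m ^ 11 + gh10 e h * n ^ 10 * m ^ 10 + gh11 e h * n ^ 11 * m ^ 9
    + gh12 e h * n ^ 12 * m ^ 8 + gh13 e h * n ^ 13 * m ^ 7 + gh14 e h * n ^ 14 * m ^ 6 + gh15 e h * n ^ 15 * m ^ 5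
    + gh16 e h * n ^ 16 * m ^ 4 + gh17 e h * n ^ 17 * m ^ 3 + gh18 e h * n ^ 18 * m ^ 2 + gh19 e h * n ^ 19 * m
    + gh20 e h * n ^ 20

/-- coefficient of `n ^ 0 * m ^ 30` in `T(m u₀ + n w)`. -/
def gt0 (_e h : R) : R := 1 * h

/-- coefficient of `n ^ 1 * m ^ 29` in `T(m u₀ + n w)`. -/
def gt1 (e _h : R) : R := 30 * e ^ 2

/-- coefficient of `n ^ 2 * m ^ 28` in `T(m u₀ + n w)`. -/
def gt2 (e h : R) : R := 435 * e * h

/-- coefficient of `n ^ 3 * m ^ 27` in `T(m u₀ + n w)`. -/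
def gt3 (e h : R) : R := 2900 * h ^ 2 + 1160 * e ^ 3

/-- coefficient of `n ^ 4 * m ^ 26` in `T(m u₀ + n w)`. -/
def gt4 (e h : R) : R := 27405 * e ^ 2 * h

/-- coefficient of `n ^ 5 * m ^ 25` in `T(m u₀ + n w)`. -/
def gt5 (e h : R) : R := 46980 * e * h ^ 2 + 95526 * e ^ 4

/-- coefficient of `n ^ 6 * m ^ 24` in `T(m u₀ + n w)`. -/
def gt6 (e h : R) : R := 156600 * h ^ 3 + 437175 * e ^ 3 * h

/-- coefficient of `n ^ 7 * m ^ 23` in `T(m u₀ + n w)`. -/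
def gt7 (e h : R) : R := 3915000 * e ^ 2 * h ^ 2 + (-1879200) * e ^ 5

/-- coefficient of `n ^ 8 * m ^ 22` in `T(m u₀ + n w)`. -/
def gt8 (e h : R) : R := 14407200 * e * h ^ 3 + (-8554275) * e ^ 4 * h

/-- coefficient of `n ^ 9 * m ^ 21` in `T(m u₀ + n w)`. -/
def gt9 (e h : R) : R := 32016000 * h ^ 4 + (-42021000) * e ^ 3 * h ^ 2 + 24312150 * e ^ 6

/-- coefficient of `n ^ 10 * m ^ 20` in `T(m u₀ + n w)`. -/
def gt10 (e h : R) : R := (-216588240) * e ^ 2 * h ^ 3 + 246633255 * e ^ 5 * h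

/-- coefficient of `n ^ 11 * m ^ 19` in `T(m u₀ + n w)`. -/
def gt11 (e h : R) : R := (-1459929600) * e * h ^ 4 + 1352475900 * e ^ 4 * h ^ 2 + 162081000 * e ^ 7

/-- coefficient of `n ^ 12 * m ^ 18` in `T(m u₀ + n w)`. -/
def gt12 (e h : R) : R := (-2433216000) * h ^ 5 + (-1612005600) * e ^ 3 * h ^ 3 + 4131714825 * e ^ 6 * h

/-- coefficient of `n ^ 13 * m ^ 17` in `T(m u₀ + n w)`. -/
def gt13 (e h : R) : R := (-12044419200) * e ^ 2 * h ^ 4 + 5235216300 * e ^ 5 * h ^ 2 + 6928962750 * e ^ 8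

/-- coefficient of `n ^ 14 * m ^ 16` in `T(m u₀ + n w)`. -/
def gt14 (e h : R) : R := (-43045111800) * e ^ 4 * h ^ 3 + 43190534475 * e ^ 7 * h

/-- coefficient of `n ^ 15 * m ^ 15` in `T(m u₀ + n w)`. -/
def gt15 (e h : R) : R := (-79420170240) * e ^ 3 * h ^ 4 + 79575287760 * e ^ 6 * h ^ 2

/-- coefficient of `n ^ 16 * m ^ 14` in `T(m u₀ + n w)`. -/
def gt16 (e h : R) : R := (-297825638400) * e ^ 2 * h ^ 5 + 474659611200 * e ^ 5 * h ^ 3 + (-176688550125) * e ^ 8 * h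

/-- coefficient of `n ^ 17 * m ^ 13` in `T(m u₀ + n w)`. -/
def gt17 (e h : R) : R := (-700766208000) * e * h ^ 6 + 935084908800 * e ^ 4 * h ^ 4 + 77604382800 * e ^ 7 * h ^ 2 + (-311803323750) * e ^ 10

/-- coefficient of `n ^ 18 * m ^ 12` in `T(m u₀ + n w)`. -/
def gt18 (e h : R) : R := (-778629120000) * h ^ 7 + (-303665356800) * e ^ 3 * h ^ 5 + 2776512362400 * e ^ 6 * h ^ 3 + (-1694131392375) * e ^ 9 * h

/-- coefficient of `n ^ 19 * m ^ 11` in `T(m u₀ + n w)`. -/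
def gt19 (e h : R) : R := (-4290656256000) * e ^ 2 * h ^ 6 + 8100765158400 * e ^ 5 * h ^ 4 + (-3481840250100) * e ^ 8 * h ^ 2 + (-328214025000) * e ^ 11

/-- coefficient of `n ^ 20 * m ^ 10` in `T(m u₀ + n w)`. -/
def gt20 (e h : R) : R := (-3442360320000) * e * h ^ 7 + 3892110842880 * e ^ 4 * h ^ 5 + 2424887357760 * e ^ 7 * h ^ 3 + (-2874607835625) * e ^ 10 * h

/-- coefficient of `n ^ 21 * m ^ 9` in `T(m u₀ + n w)`. -/
def gt21 (e h : R) : R := (-3278438400000) * h ^ 8 + 5125838438400 * e ^ 3 * h ^ 6 + (-2709129888000) * e ^ 6 * h ^ 4 + 3077188825500 * e ^ 9 * h ^ 2 + (-2215444668750) * e ^ 12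

/-- coefficient of `n ^ 22 * m ^ 8` in `T(m u₀ + n w)`. -/
def gt22 (e h : R) : R := (-4573421568000) * e ^ 2 * h ^ 7 + 7701051801600 * e ^ 5 * h ^ 5 + (-1724509423800) * e ^ 8 * h ^ 3 + (-1403114956875) * e ^ 11 * h

/-- coefficient of `n ^ 23 * m ^ 7` in `T(m u₀ + n w)`. -/
def gt23 (e h : R) : R := 6157762560000 * e * h ^ 8 + (-30337884979200) * e ^ 4 * h ^ 6 + 49888700928000 * e ^ 7 * h ^ 4 + (-33414470973000) * e ^ 10 * h ^ 2 + 7705894500000 * e ^ 13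

/-- coefficient of `n ^ 24 * m ^ 6` in `T(m u₀ + n w)`. -/
def gt24 (e h : R) : R := 5131468800000 * h ^ 9 + (-22779445248000) * e ^ 3 * h ^ 7 + 35246094796800 * e ^ 6 * h ^ 5 + (-22687218914400) * e ^ 9 * h ^ 3 + 5089101159375 * e ^ 12 * h

/-- coefficient of `n ^ 25 * m ^ 5` in `T(m u₀ + n w)`. -/
def gt25 (e h : R) : R := (-18216714240000) * e ^ 2 * h ^ 8 + 71274600677376 * e ^ 5 * h ^ 6 + (-105528606261120) * e ^ 8 * h ^ 4 + 70097953635000 * e ^ 11 * h ^ 2 + (-17627233668750) * e ^ 14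

/-- coefficient of `n ^ 26 * m ^ 4` in `T(m u₀ + n w)`. -/
def gt26 (e h : R) : R := (-41051750400000) * e * h ^ 9 + 163803539865600 * e ^ 4 * h ^ 7 + (-245438120632320) * e ^ 7 * h ^ 5 + 163672057566000 * e ^ 10 * h ^ 3 + (-40985726371875) * e ^ 13 * h

/-- coefficient of `n ^ 27 * m ^ 3` in `T(m u₀ + n w)`. -/
def gt27 (e h : R) : R := (-30408704000000) * h ^ 10 + 111934439424000 * e ^ 3 * h ^ 8 + (-143803576074240) * e ^ 6 * h ^ 6 + 63806176396800 * e ^ 9 * h ^ 4 + 8104032382500 * e ^ 12 * h ^ 2 + (-9632368125000) * e ^ 15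

/-- coefficient of `n ^ 28 * m ^ 2` in `T(m u₀ + n w)`. -/
def gt28 (e h : R) : R := (-21438136320000) * e ^ 2 * h ^ 9 + 85731449241600 * e ^ 5 * h ^ 7 + (-128580522647040) * e ^ 8 * h ^ 5 + 85719228804000 * e ^ 11 * h ^ 3 + (-21432019078125) * e ^ 14 * h

/-- coefficient of `n ^ 29 * m ^ 1` in `T(m u₀ + n w)`. -/
def gt29 (e h : R) : R := 5033164800000 * e * h ^ 10 + (-31344427008000) * e ^ 4 * h ^ 8 + 75042714746880 * e ^ 7 * h ^ 6 + (-87394892457600) * e ^ 10 * h ^ 4 + 49873523512500 * e ^ 13 * h ^ 2 + (-11210083593750) * e ^ 16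

/-- coefficient of `n ^ 30 * m ^ 0` in `T(m u₀ + n w)`. -/
def gt30 (e h : R) : R := 3355443200000 * h ^ 11 + (-17532190720000) * e ^ 3 * h ^ 9 + 36574189977600 * e ^ 6 * h ^ 7 + (-38083944628224) * e ^ 9 * h ^ 5 + 19796866155000 * e ^ 12 * h ^ 3 + (-4110363984375) * e ^ 15 * h

/-- `T(m u₀ + n w)` as a form in `(m, n)` with coefficients in `e = H(u₀)`, `h = T(u₀)`. -/
def famT (e h m n : R) : R :=
  gt0 e h * m ^ 30 + gt1 e h * n * m ^ 29 + gt2 e h * n ^ 2 * m ^ 28 + gt3 e h * n ^ 3 * m ^ 27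
    + gt4 e h * n ^ 4 * m ^ 26 + gt5 e h * n ^ 5 * m ^ 25 + gt6 e h * n ^ 6 * m ^ 24 + gt7 e h * n ^ 7 * m ^ 23
    + gt8 e h * n ^ 8 * m ^ 22 + gt9 e h * n ^ 9 * m ^ 21 + gt10 e h * n ^ 10 * m ^ 20 + gt11 e h * n ^ 11 * m ^ 19
    + gt12 e h * n ^ 12 * m ^ 18 + gt13 e h * n ^ 13 * m ^ 17 + gt14 e h * n ^ 14 * m ^ 16 + gt15 e h * n ^ 15 * m ^ 15
    + gt16 e h * n ^ 16 * m ^ 14 + gt17 e h * n ^ 17 * m ^ 13 + gt18 e h * n ^ 18 * m ^ 12 + gt19 e h * n ^ 19 * m ^ 11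
    + gt20 e h * n ^ 20 * m ^ 10 + gt21 e h * n ^ 21 * m ^ 9 + gt22 e h * n ^ 22 * m ^ 8 + gt23 e h * n ^ 23 * m ^ 7
    + gt24 e h * n ^ 24 * m ^ 6 + gt25 e h * n ^ 25 * m ^ 5 + gt26 e h * n ^ 26 * m ^ 4 + gt27 e h * n ^ 27 * m ^ 3
    + gt28 e h * n ^ 28 * m ^ 2 + gt29 e h * n ^ 29 * m + gt30 e h * n ^ 30

/-- coefficient of `n ^ 0 * m ^ 12` in `f(m u₀ + n w) / f(u₀)`. -/
def gd0 (_e _h : R) : R := 1

/-- coefficient of `n ^ 1 * m ^ 11` in `f(m u₀ + n w) / f(u₀)`. -/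
def gd1 (_e _h : R) : R := 0

/-- coefficient of `n ^ 2 * m ^ 10` in `f(m u₀ + n w) / f(u₀)`. -/
def gd2 (e _h : R) : R := (-66) * e

/-- coefficient of `n ^ 3 * m ^ 9` in `f(m u₀ + n w) / f(u₀)`. -/
def gd3 (_e h : R) : R := (-440) * h

/-- coefficient of `n ^ 4 * m ^ 8` in `f(m u₀ + n w) / f(u₀)`. -/
def gd4 (e _h : R) : R := (-1485) * e ^ 2

/-- coefficient of `n ^ 5 * m ^ 7` in `f(m u₀ + n w) / f(u₀)`. -/
def gd5 (e h : R) : R := (-3168) * e * h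

/-- coefficient of `n ^ 6 * m ^ 6` in `f(m u₀ + n w) / f(u₀)`. -/
def gd6 (e h : R) : R := (-10560) * h ^ 2 + 5940 * e ^ 3

/-- coefficient of `n ^ 7 * m ^ 5` in `f(m u₀ + n w) / f(u₀)`. -/
def gd7 (e h : R) : R := (-4752) * e ^ 2 * h

/-- coefficient of `n ^ 8 * m ^ 4` in `f(m u₀ + n w) / f(u₀)`. -/
def gd8 (e h : R) : R := 63360 * e * h ^ 2 + (-66825) * e ^ 4

/-- coefficient of `n ^ 9 * m ^ 3` in `f(m u₀ + n w) / f(u₀)`. -/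
def gd9 (e h : R) : R := 140800 * h ^ 3 + (-142560) * e ^ 3 * h

/-- coefficient of `n ^ 10 * m ^ 2` in `f(m u₀ + n w) / f(u₀)`. -/
def gd10 (e h : R) : R := 133056 * e ^ 2 * h ^ 2 + (-133650) * e ^ 5

/-- coefficient of `n ^ 11 * m ^ 1` in `f(m u₀ + n w) / f(u₀)`. -/
def gd11 (e h : R) : R := 61440 * e * h ^ 3 + (-61560) * e ^ 4 * h

/-- coefficient of `n ^ 12 * m ^ 0` in `f(m u₀ + n w) / f(u₀)`. -/
def gd12 (e h : R) : R := 102400 * h ^ 4 + (-193536) * e ^ 3 * h ^ 2 + 91125 * e ^ 6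

/-- `f(m u₀ + n w) / f(u₀)` as a form in `(m, n)` with coefficients in `e = H(u₀)`, `h = T(u₀)`. -/
def famD (e h m n : R) : R :=
  gd0 e h * m ^ 12 + gd1 e h * n * m ^ 11 + gd2 e h * n ^ 2 * m ^ 10 + gd3 e h * n ^ 3 * m ^ 9
    + gd4 e h * n ^ 4 * m ^ 8 + gd5 e h * n ^ 5 * m ^ 7 + gd6 e h * n ^ 6 * m ^ 6 + gd7 e h * n ^ 7 * m ^ 5
    + gd8 e h * n ^ 8 * m ^ 4 + gd9 e h * n ^ 9 * m ^ 3 + gd10 e h * n ^ 10 * m ^ 2 + gd11 e h * n ^ 11 * m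
    + gd12 e h * n ^ 12

end Fermat.Agent.S52P.Klein
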