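/-
S52P / Klein data: the syzygy, Euler, the resultant (Bezout) identities, and the identities of the
3-division quartic and of the integral model.
Machine-generated by helper23 (exact integer arithmetic, script-checked before Lean).
-/
import Mathlib
import Fermat.Agent.S52P.Klein.Defs

set_option autoImplicit false
set_option maxHeartbeats 0
set_option maxRecDepth 20000

namespace Fermat.Agent.S52P.Klein

variable {R : Type*} [CommRing R]

/-- The syzygy `H³ - T² = -1728 f⁵` (`f⁵ = X Y φ⁵`). -/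
theorem syzygy (X Y : R) :
    eta X Y ^ 3 - theta X Y ^ 2 = -1728 * (X * Y * phi X Y ^ 5) := by
  unfold eta theta phi; ring

/-- Euler: `x f_x + y f_y = 12 f`, divided by `x y`. -/
theorem kA_add_kB (X Y : R) : kA X Y + kB X Y = 12 * phi X Y := by
  unfold kA kB phi; ring

/-- `Res(H, T)`: Bezout for `X⁹`. -/
theorem bez_eta_theta_X (X Y : R) :
    (950431323 * X ^ 5 - 20237705983 * X ^ 4 * Y - 103588896 * X ^ 3 * Y ^ 2
        - 20237108822 * X ^ 2 * Y ^ 3 - 1055557719 * X * Y ^ 4 + 2022161 * Y ^ 5) * eta X Y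
      + (455818677 * X ^ 3 - 1001301767 * X ^ 2 * Y - 461063031 * X * Y ^ 2 - 2022161 * Y ^ 3)
        * theta X Y = 1406250000 * X ^ 9 := by
  unfold eta theta; ring

/-- `Res(H, T)`: Bezout for `Y⁹`. -/
theorem bez_eta_theta_Y (X Y : R) :
    (-2022161 * X ^ 5 - 1055557719 * X ^ 4 * Y + 20237108822 * X ^ 3 * Y ^ 2
        - 103588896 * X ^ 2 * Y ^ 3 + 20237705983 * X * Y ^ 4 + 950431323 * Y ^ 5) * eta X Y
      + (2022161 * X ^ 3 - 461063031 * X ^ 2 * Y + 1001301767 * X * Y ^ 2 + 455818677 * Y ^ 3)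
        * theta X Y = 1406250000 * Y ^ 9 := by
  unfold eta theta; ring

/-- `Res(φ, H)`: Bezout for `X⁵`. -/
theorem bez_phi_eta_X (X Y : R) :
    (3003 * X ^ 3 - 5206 * X ^ 2 * Y - 2507 * X * Y ^ 2 - 11 * Y ^ 3) * phi X Y
      + (122 * X - 11 * Y) * eta X Y = 3125 * X ^ 5 := by
  unfold eta phi; ring

/-- `Res(φ, H)`: Bezout for `Y⁵`. -/
theorem bez_phi_eta_Y (X Y : R) :
    (-11 * X ^ 3 + 2507 * X ^ 2 * Y - 5206 * X * Y ^ 2 - 3003 * Y ^ 3) * phi X Y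
      + (11 * X + 122 * Y) * eta X Y = 3125 * Y ^ 5 := by
  unfold eta phi; ring

/-- `Res(kA, kB)`: Bezout for `X³`. -/
theorem bez_kA_kB_X (X Y : R) :
    (-728 * X + 11 * Y) * kA X Y + (748 * X - 121 * Y) * kB X Y = 7500 * X ^ 3 := by
  unfold kA kB; ring

/-- `Res(kA, kB)`: Bezout for `Y³`. -/
theorem bez_kA_kB_Y (X Y : R) :
    (-121 * X - 748 * Y) * kA X Y + (11 * X + 728 * Y) * kB X Y = 7500 * Y ^ 3 := by
  unfold kA kB; ring

/-- The resolvent identity of the 3-division quartic. -/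
theorem quart3_resolvent (c₄ c₆ z : R) :
    64 * z ^ 2 * (c₄ ^ 3 - c₆ ^ 2) =
      (z ^ 2 - c₄) ^ 3 * (9 * c₄ - z ^ 2) + quart3 c₄ c₆ z * quart3 c₄ c₆ (-z) := by
  unfold quart3; ring

/-- `3 (z² - c₄)² = 4 z (z³ - 3 c₄ z - 2 c₆) - quart3`. -/
theorem quart3_deriv (c₄ c₆ z : R) :
    3 * (z ^ 2 - c₄) ^ 2 = 4 * z * (z ^ 3 - 3 * c₄ * z - 2 * c₆) - quart3 c₄ c₆ z := by
  unfold quart3; ring

/-- The 3-division polynomial `Ψ₃` of a general Weierstrass equation, in `z = 12 x + b₂`. -/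
theorem quart3_eq_Ψ₃ (W : WeierstrassCurve R) (x : R) :
    quart3 W.c₄ W.c₆ (12 * x + W.b₂) =
      6912 * (3 * x ^ 4 + W.b₂ * x ^ 3 + 3 * W.b₄ * x ^ 2 + 3 * W.b₆ * x + W.b₈) := by
  unfold quart3
  simp only [WeierstrassCurve.c₄, WeierstrassCurve.c₆, WeierstrassCurve.b₂, WeierstrassCurve.b₄,
    WeierstrassCurve.b₆, WeierstrassCurve.b₈]
  ring

/-- The integral model with prescribed invariants `(l⁴ c₄ + 1728 k₄, l⁶ c₆ + 1728 k₆)`. -/
def twistModel (W : WeierstrassCurve R) (l k₄ k₆ : R) : WeierstrassCurve R :=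
  ⟨l * W.a₁, l ^ 2 * W.a₂, l ^ 3 * W.a₃, l ^ 4 * W.a₄ - 36 * k₄,
    l ^ 6 * W.a₆ - 3 * l ^ 2 * W.b₂ * k₄ - 2 * k₆⟩

theorem twistModel_c₄ (W : WeierstrassCurve R) (l k₄ k₆ : R) :
    (twistModel W l k₄ k₆).c₄ = l ^ 4 * W.c₄ + 1728 * k₄ := by
  simp only [twistModel, WeierstrassCurve.c₄, WeierstrassCurve.b₂, WeierstrassCurve.b₄]
  ring

theorem twistModel_c₆ (W : WeierstrassCurve R) (l k₄ k₆ : R) :
    (twistModel W l k₄ k₆).c₆ = l ^ 6 * W.c₆ + 1728 * k₆ := by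
  simp only [twistModel, WeierstrassCurve.c₆, WeierstrassCurve.b₂, WeierstrassCurve.b₄,
    WeierstrassCurve.b₆]
  ring

end Fermat.Agent.S52P.Klein
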