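/-
S52P / Klein data: elementary facts on the three forms `famH`, `famT`, `famD` as polynomials in
`(m, n)`: the value mod `n`, and homogeneity of degrees 20, 30, 12.  (helper23)
-/
import Mathlib
import Fermat.Agent.S52P.Klein.Defs

set_option autoImplicit false
set_option maxRecDepth 20000

namespace Fermat.Agent.S52P.Klein

variable {R : Type*} [CommRing R]

/-- `famH e h m n = e m²⁰ + n q`. -/
theorem famH_eq_add (e h m n : R) : ∃ q : R, famH e h m n = e * m ^ 20 + n * q :=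
  ⟨gh1 e h * m ^ 19 + gh2 e h * n * m ^ 18 + gh3 e h * n ^ 2 * m ^ 17 + gh4 e h * n ^ 3 * m ^ 16 + gh5 e h * n ^ 4 * m ^ 15 + gh6 e h * n ^ 5 * m ^ 14 + gh7 e h * n ^ 6 * m ^ 13 + gh8 e h * n ^ 7 * m ^ 12 + gh9 e h * n ^ 8 * m ^ 11 + gh10 e h * n ^ 9 * m ^ 10 + gh11 e h * n ^ 10 * m ^ 9 + gh12 e h * n ^ 11 * m ^ 8 + gh13 e h * n ^ 12 * m ^ 7 + gh14 e h * n ^ 13 * m ^ 6 + gh15 e h * n ^ 14 * m ^ 5 + gh16 e h * n ^ 15 * m ^ 4 + gh17 e h * n ^ 16 * m ^ 3 + gh18 e h * n ^ 17 * m ^ 2 + gh19 e h * n ^ 18 * m + gh20 e h * n ^ 19, by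
    unfold famH gh0; ring⟩

/-- `famT e h m n = h m³⁰ + n q`. -/
theorem famT_eq_add (e h m n : R) : ∃ q : R, famT e h m n = h * m ^ 30 + n * q :=
  ⟨gt1 e h * m ^ 29 + gt2 e h * n * m ^ 28 + gt3 e h * n ^ 2 * m ^ 27 + gt4 e h * n ^ 3 * m ^ 26 + gt5 e h * n ^ 4 * m ^ 25 + gt6 e h * n ^ 5 * m ^ 24 + gt7 e h * n ^ 6 * m ^ 23 + gt8 e h * n ^ 7 * m ^ 22 + gt9 e h * n ^ 8 * m ^ 21 + gt10 e h * n ^ 9 * m ^ 20 + gt11 e h * n ^ 10 * m ^ 19 + gt12 e h * n ^ 11 * m ^ 18 + gt13 e h * n ^ 12 * m ^ 17 + gt14 e h * n ^ 13 * m ^ 16 + gt15 e h * n ^ 14 * m ^ 15 + gt16 e h * n ^ 15 * m ^ 14 + gt17 e h * n ^ 16 * m ^ 13 + gt18 e h * n ^ 17 * m ^ 12 + gt19 e h * n ^ 18 * m ^ 11 + gt20 e h * n ^ 19 * m ^ 10 + gt21 e h * n ^ 20 * m ^ 9 + gt22 e h * n ^ 21 * m ^ 8 + gt23 e h * n ^ 22 * m ^ 7 + gt24 e h * n ^ 23 * m ^ 6 + gt25 e h * n ^ 24 * m ^ 5 + gt26 e h * n ^ 25 * m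 ^ 4 + gt27 e h * n ^ 26 * m ^ 3 + gt28 e h * n ^ 27 * m ^ 2 + gt29 e h * n ^ 28 * m + gt30 e h * n ^ 29, by
    unfold famT gt0; ring⟩

/-- `famD e h m n = m¹² + n q`. -/
theorem famD_eq_add (e h m n : R) : ∃ q : R, famD e h m n = m ^ 12 + n * q :=
  ⟨gd1 e h * m ^ 11 + gd2 e h * n * m ^ 10 + gd3 e h * n ^ 2 * m ^ 9 + gd4 e h * n ^ 3 * m ^ 8 + gd5 e h * n ^ 4 * m ^ 7 + gd6 e h * n ^ 5 * m ^ 6 + gd7 e h * n ^ 6 * m ^ 5 + gd8 e h * n ^ 7 * m ^ 4 + gd9 e h * n ^ 8 * m ^ 3 + gd10 e h * n ^ 9 * m ^ 2 + gd11 e h * n ^ 10 * m + gd12 e h * n ^ 11, by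
    unfold famD gd0; ring⟩

theorem dvd_famH_sub (e h m n : R) : n ∣ famH e h m n - e * m ^ 20 := by
  obtain ⟨q, hq⟩ := famH_eq_add e h m n
  exact ⟨q, by rw [hq]; ring⟩

theorem dvd_famT_sub (e h m n : R) : n ∣ famT e h m n - h * m ^ 30 := by
  obtain ⟨q, hq⟩ := famT_eq_add e h m n
  exact ⟨q, by rw [hq]; ring⟩

theorem dvd_famD_sub (e h m n : R) : n ∣ famD e h m n - m ^ 12 := by
  obtain ⟨q, hq⟩ := famD_eq_add e h m n
  exact ⟨q, by rw [hq]; ring⟩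

/-- Homogeneity of degree 20 in `(m, n)`. -/
theorem famH_smul (e h s m n : R) : famH e h (s * m) (s * n) = s ^ 20 * famH e h m n := by
  unfold famH; ring

/-- Homogeneity of degree 30 in `(m, n)`. -/
theorem famT_smul (e h s m n : R) : famT e h (s * m) (s * n) = s ^ 30 * famT e h m n := by
  unfold famT; ring

/-- Homogeneity of degree 12 in `(m, n)`. -/
theorem famD_smul (e h s m n : R) : famD e h (s * m) (s * n) = s ^ 12 * famD e h m n := by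
  unfold famD; ring

/-- `quart3` is weighted homogeneous: weights `(2, 3, 1)`, degree 4. -/
theorem quart3_smul (s a b z : R) : quart3 (s ^ 2 * a) (s ^ 3 * b) (s * z) = s ^ 4 * quart3 a b z := by
  unfold quart3; ring

end Fermat.Agent.S52P.Klein
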