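/-
S52P / Klein data: the forms commute with ring homomorphisms (`map_eta`, …, `map_famH`, `map_famT`,
`map_famD`), and the values of the family at `n = 0`.  Light file: imports the definitions only.
(helper23)
-/
import Mathlib
import Fermat.Agent.S52P.Klein.Defs

set_option autoImplicit false
set_option maxRecDepth 20000

namespace Fermat.Agent.S52P.Klein

variable {R : Type*} [CommRing R]

variable {S : Type*} [CommRing S]

theorem map_eta (f : R →+* S) (a b : R) : f (eta a b) = eta (f a) (f b) := by
  simp only [eta, map_add, map_sub, map_mul, map_pow, map_ofNat]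

theorem map_theta (f : R →+* S) (a b : R) : f (theta a b) = theta (f a) (f b) := by
  simp only [theta, map_add, map_sub, map_mul, map_pow, map_ofNat]

theorem map_phi (f : R →+* S) (a b : R) : f (phi a b) = phi (f a) (f b) := by
  simp only [phi, map_add, map_sub, map_mul, map_pow, map_ofNat]

theorem map_kA (f : R →+* S) (a b : R) : f (kA a b) = kA (f a) (f b) := by
  simp only [kA, map_add, map_sub, map_mul, map_pow, map_ofNat]

theorem map_kB (f : R →+* S) (a b : R) : f (kB a b) = kB (f a) (f b) := by
  simp only [kB, map_add, map_sub, map_mul, map_pow, map_ofNat]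

theorem map_famH (f : R →+* S) (e h m n : R) :
    f (famH e h m n) = famH (f e) (f h) (f m) (f n) := by
  simp only [famH, gh0, gh1, gh2, gh3, gh4, gh5, gh6, gh7, gh8, gh9, gh10, gh11, gh12, gh13, gh14, gh15, gh16, gh17, gh18, gh19, gh20, map_add, map_mul, map_pow, map_ofNat, map_neg,
    map_one]

theorem map_famT (f : R →+* S) (e h m n : R) :
    f (famT e h m n) = famT (f e) (f h) (f m) (f n) := by
  simp only [famT, gt0, gt1, gt2, gt3, gt4, gt5, gt6, gt7, gt8, gt9, gt10, gt11, gt12, gt13, gt14, gt15, gt16, gt17, gt18, gt19, gt20, gt21, gt22, gt23, gt24, gt25, gt26, gt27, gt28, gt29, gt30, map_add, map_mul, map_pow, map_ofNat, map_neg,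
    map_one]

theorem map_famD (f : R →+* S) (e h m n : R) :
    f (famD e h m n) = famD (f e) (f h) (f m) (f n) := by
  simp only [famD, gd0, gd1, gd2, gd3, gd4, gd5, gd6, gd7, gd8, gd9, gd10, gd11, gd12, map_add, map_mul, map_pow, map_ofNat, map_neg,
    map_zero, map_one]

/-- `famH e h m 0 = e m²⁰` etc.: the value at `n = 0`. -/
theorem famH_zero (e h m : R) : famH e h m 0 = e * m ^ 20 := by
  simp [famH, gh0]

theorem famT_zero (e h m : R) : famT e h m 0 = h * m ^ 30 := by
  simp [famT, gt0]

theorem famD_zero (e h m : R) : famD e h m 0 = m ^ 12 := by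
  simp [famD, gd0]

theorem map_quart3 (f : R →+* S) (a b z : R) : f (quart3 a b z) = quart3 (f a) (f b) (f z) := by
  simp only [quart3, map_sub, map_mul, map_pow, map_ofNat]

end Fermat.Agent.S52P.Klein
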