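/-
S52P / Klein data: the expansion of `H` along the line `m u₀ + n w`.
Machine-generated by helper23 (exact integer arithmetic, script-checked before Lean).
The proof is split so that every `ring` is small: first the binomial expansion with `kA`, `kB`
replaced by indeterminates `A`, `B` (`famH_lin`), then one identity in `ℤ[X, Y]` per coefficient
(`famHc0_eq` … `famHc20_eq`).
-/
import Mathlib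
import Fermat.Agent.S52P.Klein.Defs

set_option autoImplicit false
set_option maxHeartbeats 0
set_option maxRecDepth 20000
set_option linter.unusedSimpArgs false

namespace Fermat.Agent.S52P.Klein

variable {R : Type*} [CommRing R]

/-- coefficient of `n ^ 0 * m ^ 20` in `eta (X (m + n A)⁵) (Y (m - n B)⁵)`. -/
def famHc0 (X Y A B : R) : R :=
  1 * X ^ 4 + (-228) * X ^ 3 * Y + 494 * X ^ 2 * Y ^ 2 + 228 * X * Y ^ 3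
    + 1 * Y ^ 4

/-- coefficient of `n ^ 1 * m ^ 19` in `eta (X (m + n A)⁵) (Y (m - n B)⁵)`. -/
def famHc1 (X Y A B : R) : R :=
  20 * X ^ 4 * A + 1140 * X ^ 3 * Y * B + (-3420) * X ^ 3 * Y * A + (-4940) * X ^ 2 * Y ^ 2 * B
    + 4940 * X ^ 2 * Y ^ 2 * A + (-3420) * X * Y ^ 3 * B + 1140 * X * Y ^ 3 * A + (-20) * Y ^ 4 * B

/-- coefficient of `n ^ 2 * m ^ 18` in `eta (X (m + n A)⁵) (Y (m - n B)⁵)`. -/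
def famHc2 (X Y A B : R) : R :=
  190 * X ^ 4 * A ^ 2 + (-2280) * X ^ 3 * Y * B ^ 2 + 17100 * X ^ 3 * Y * A * B + (-23940) * X ^ 3 * Y * A ^ 2
    + 22230 * X ^ 2 * Y ^ 2 * B ^ 2 + (-49400) * X ^ 2 * Y ^ 2 * A * B + 22230 * X ^ 2 * Y ^ 2 * A ^ 2 + 23940 * X * Y ^ 3 * B ^ 2
    + (-17100) * X * Y ^ 3 * A * B + 2280 * X * Y ^ 3 * A ^ 2 + 190 * Y ^ 4 * B ^ 2

/-- coefficient of `n ^ 3 * m ^ 17` in `eta (X (m + n A)⁵) (Y (m - n B)⁵)`. -/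
def famHc3 (X Y A B : R) : R :=
  1140 * X ^ 4 * A ^ 3 + 2280 * X ^ 3 * Y * B ^ 3 + (-34200) * X ^ 3 * Y * A * B ^ 2 + 119700 * X ^ 3 * Y * A ^ 2 * B
    + (-103740) * X ^ 3 * Y * A ^ 3 + (-59280) * X ^ 2 * Y ^ 2 * B ^ 3 + 222300 * X ^ 2 * Y ^ 2 * A * B ^ 2 + (-222300) * X ^ 2 * Y ^ 2 * A ^ 2 * B
    + 59280 * X ^ 2 * Y ^ 2 * A ^ 3 + (-103740) * X * Y ^ 3 * B ^ 3 + 119700 * X * Y ^ 3 * A * B ^ 2 + (-34200) * X * Y ^ 3 * A ^ 2 * B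
    + 2280 * X * Y ^ 3 * A ^ 3 + (-1140) * Y ^ 4 * B ^ 3

/-- coefficient of `n ^ 4 * m ^ 16` in `eta (X (m + n A)⁵) (Y (m - n B)⁵)`. -/
def famHc4 (X Y A B : R) : R :=
  4845 * X ^ 4 * A ^ 4 + (-1140) * X ^ 3 * Y * B ^ 4 + 34200 * X ^ 3 * Y * A * B ^ 3 + (-239400) * X ^ 3 * Y * A ^ 2 * B ^ 2
    + 518700 * X ^ 3 * Y * A ^ 3 * B + (-311220) * X ^ 3 * Y * A ^ 4 + 103740 * X ^ 2 * Y ^ 2 * B ^ 4 + (-592800) * X ^ 2 * Y ^ 2 * A * B ^ 3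
    + 1000350 * X ^ 2 * Y ^ 2 * A ^ 2 * B ^ 2 + (-592800) * X ^ 2 * Y ^ 2 * A ^ 3 * B + 103740 * X ^ 2 * Y ^ 2 * A ^ 4 + 311220 * X * Y ^ 3 * B ^ 4
    + (-518700) * X * Y ^ 3 * A * B ^ 3 + 239400 * X * Y ^ 3 * A ^ 2 * B ^ 2 + (-34200) * X * Y ^ 3 * A ^ 3 * B + 1140 * X * Y ^ 3 * A ^ 4
    + 4845 * Y ^ 4 * B ^ 4

/-- coefficient of `n ^ 5 * m ^ 15` in `eta (X (m + n A)⁵) (Y (m - n B)⁵)`. -/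
def famHc5 (X Y A B : R) : R :=
  15504 * X ^ 4 * A ^ 5 + 228 * X ^ 3 * Y * B ^ 5 + (-17100) * X ^ 3 * Y * A * B ^ 4 + 239400 * X ^ 3 * Y * A ^ 2 * B ^ 3
    + (-1037400) * X ^ 3 * Y * A ^ 3 * B ^ 2 + 1556100 * X ^ 3 * Y * A ^ 4 * B + (-684684) * X ^ 3 * Y * A ^ 5 + (-124488) * X ^ 2 * Y ^ 2 * B ^ 5
    + 1037400 * X ^ 2 * Y ^ 2 * A * B ^ 4 + (-2667600) * X ^ 2 * Y ^ 2 * A ^ 2 * B ^ 3 + 2667600 * X ^ 2 * Y ^ 2 * A ^ 3 * B ^ 2 + (-1037400) * X ^ 2 * Y ^ 2 * A ^ 4 * B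
    + 124488 * X ^ 2 * Y ^ 2 * A ^ 5 + (-684684) * X * Y ^ 3 * B ^ 5 + 1556100 * X * Y ^ 3 * A * B ^ 4 + (-1037400) * X * Y ^ 3 * A ^ 2 * B ^ 3
    + 239400 * X * Y ^ 3 * A ^ 3 * B ^ 2 + (-17100) * X * Y ^ 3 * A ^ 4 * B + 228 * X * Y ^ 3 * A ^ 5 + (-15504) * Y ^ 4 * B ^ 5

/-- coefficient of `n ^ 6 * m ^ 14` in `eta (X (m + n A)⁵) (Y (m - n B)⁵)`. -/
def famHc6 (X Y A B : R) : R :=
  38760 * X ^ 4 * A ^ 6 + 3420 * X ^ 3 * Y * A * B ^ 5 + (-119700) * X ^ 3 * Y * A ^ 2 * B ^ 4 + 1037400 * X ^ 3 * Y * A ^ 3 * B ^ 3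
    + (-3112200) * X ^ 3 * Y * A ^ 4 * B ^ 2 + 3423420 * X ^ 3 * Y * A ^ 5 * B + (-1141140) * X ^ 3 * Y * A ^ 6 + 103740 * X ^ 2 * Y ^ 2 * B ^ 6
    + (-1244880) * X ^ 2 * Y ^ 2 * A * B ^ 5 + 4668300 * X ^ 2 * Y ^ 2 * A ^ 2 * B ^ 4 + (-7113600) * X ^ 2 * Y ^ 2 * A ^ 3 * B ^ 3 + 4668300 * X ^ 2 * Y ^ 2 * A ^ 4 * B ^ 2
    + (-1244880) * X ^ 2 * Y ^ 2 * A ^ 5 * B + 103740 * X ^ 2 * Y ^ 2 * A ^ 6 + 1141140 * X * Y ^ 3 * B ^ 6 + (-3423420) * X * Y ^ 3 * A * B ^ 5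
    + 3112200 * X * Y ^ 3 * A ^ 2 * B ^ 4 + (-1037400) * X * Y ^ 3 * A ^ 3 * B ^ 3 + 119700 * X * Y ^ 3 * A ^ 4 * B ^ 2 + (-3420) * X * Y ^ 3 * A ^ 5 * B
    + 38760 * Y ^ 4 * B ^ 6

/-- coefficient of `n ^ 7 * m ^ 13` in `eta (X (m + n A)⁵) (Y (m - n B)⁵)`. -/
def famHc7 (X Y A B : R) : R :=
  77520 * X ^ 4 * A ^ 7 + 23940 * X ^ 3 * Y * A ^ 2 * B ^ 5 + (-518700) * X ^ 3 * Y * A ^ 3 * B ^ 4 + 3112200 * X ^ 3 * Y * A ^ 4 * B ^ 3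
    + (-6846840) * X ^ 3 * Y * A ^ 5 * B ^ 2 + 5705700 * X ^ 3 * Y * A ^ 6 * B + (-1467180) * X ^ 3 * Y * A ^ 7 + (-59280) * X ^ 2 * Y ^ 2 * B ^ 7
    + 1037400 * X ^ 2 * Y ^ 2 * A * B ^ 6 + (-5601960) * X ^ 2 * Y ^ 2 * A ^ 2 * B ^ 5 + 12448800 * X ^ 2 * Y ^ 2 * A ^ 3 * B ^ 4 + (-12448800) * X ^ 2 * Y ^ 2 * A ^ 4 * B ^ 3
    + 5601960 * X ^ 2 * Y ^ 2 * A ^ 5 * B ^ 2 + (-1037400) * X ^ 2 * Y ^ 2 * A ^ 6 * B + 59280 * X ^ 2 * Y ^ 2 * A ^ 7 + (-1467180) * X * Y ^ 3 * B ^ 7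
    + 5705700 * X * Y ^ 3 * A * B ^ 6 + (-6846840) * X * Y ^ 3 * A ^ 2 * B ^ 5 + 3112200 * X * Y ^ 3 * A ^ 3 * B ^ 4 + (-518700) * X * Y ^ 3 * A ^ 4 * B ^ 3
    + 23940 * X * Y ^ 3 * A ^ 5 * B ^ 2 + (-77520) * Y ^ 4 * B ^ 7

/-- coefficient of `n ^ 8 * m ^ 12` in `eta (X (m + n A)⁵) (Y (m - n B)⁵)`. -/
def famHc8 (X Y A B : R) : R :=
  125970 * X ^ 4 * A ^ 8 + 103740 * X ^ 3 * Y * A ^ 3 * B ^ 5 + (-1556100) * X ^ 3 * Y * A ^ 4 * B ^ 4 + 6846840 * X ^ 3 * Y * A ^ 5 * B ^ 3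
    + (-11411400) * X ^ 3 * Y * A ^ 6 * B ^ 2 + 7335900 * X ^ 3 * Y * A ^ 7 * B + (-1467180) * X ^ 3 * Y * A ^ 8 + 22230 * X ^ 2 * Y ^ 2 * B ^ 8
    + (-592800) * X ^ 2 * Y ^ 2 * A * B ^ 7 + 4668300 * X ^ 2 * Y ^ 2 * A ^ 2 * B ^ 6 + (-14938560) * X ^ 2 * Y ^ 2 * A ^ 3 * B ^ 5 + 21785400 * X ^ 2 * Y ^ 2 * A ^ 4 * B ^ 4
    + (-14938560) * X ^ 2 * Y ^ 2 * A ^ 5 * B ^ 3 + 4668300 * X ^ 2 * Y ^ 2 * A ^ 6 * B ^ 2 + (-592800) * X ^ 2 * Y ^ 2 * A ^ 7 * B + 22230 * X ^ 2 * Y ^ 2 * A ^ 8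
    + 1467180 * X * Y ^ 3 * B ^ 8 + (-7335900) * X * Y ^ 3 * A * B ^ 7 + 11411400 * X * Y ^ 3 * A ^ 2 * B ^ 6 + (-6846840) * X * Y ^ 3 * A ^ 3 * B ^ 5
    + 1556100 * X * Y ^ 3 * A ^ 4 * B ^ 4 + (-103740) * X * Y ^ 3 * A ^ 5 * B ^ 3 + 125970 * Y ^ 4 * B ^ 8

/-- coefficient of `n ^ 9 * m ^ 11` in `eta (X (m + n A)⁵) (Y (m - n B)⁵)`. -/
def famHc9 (X Y A B : R) : R :=
  167960 * X ^ 4 * A ^ 9 + 311220 * X ^ 3 * Y * A ^ 4 * B ^ 5 + (-3423420) * X ^ 3 * Y * A ^ 5 * B ^ 4 + 11411400 * X ^ 3 * Y * A ^ 6 * B ^ 3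
    + (-14671800) * X ^ 3 * Y * A ^ 7 * B ^ 2 + 7335900 * X ^ 3 * Y * A ^ 8 * B + (-1141140) * X ^ 3 * Y * A ^ 9 + (-4940) * X ^ 2 * Y ^ 2 * B ^ 9
    + 222300 * X ^ 2 * Y ^ 2 * A * B ^ 8 + (-2667600) * X ^ 2 * Y ^ 2 * A ^ 2 * B ^ 7 + 12448800 * X ^ 2 * Y ^ 2 * A ^ 3 * B ^ 6 + (-26142480) * X ^ 2 * Y ^ 2 * A ^ 4 * B ^ 5
    + 26142480 * X ^ 2 * Y ^ 2 * A ^ 5 * B ^ 4 + (-12448800) * X ^ 2 * Y ^ 2 * A ^ 6 * B ^ 3 + 2667600 * X ^ 2 * Y ^ 2 * A ^ 7 * B ^ 2 + (-222300) * X ^ 2 * Y ^ 2 * A ^ 8 * B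
    + 4940 * X ^ 2 * Y ^ 2 * A ^ 9 + (-1141140) * X * Y ^ 3 * B ^ 9 + 7335900 * X * Y ^ 3 * A * B ^ 8 + (-14671800) * X * Y ^ 3 * A ^ 2 * B ^ 7
    + 11411400 * X * Y ^ 3 * A ^ 3 * B ^ 6 + (-3423420) * X * Y ^ 3 * A ^ 4 * B ^ 5 + 311220 * X * Y ^ 3 * A ^ 5 * B ^ 4 + (-167960) * Y ^ 4 * B ^ 9

/-- coefficient of `n ^ 10 * m ^ 10` in `eta (X (m + n A)⁵) (Y (m - n B)⁵)`. -/
def famHc10 (X Y A B : R) : R :=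
  184756 * X ^ 4 * A ^ 10 + 684684 * X ^ 3 * Y * A ^ 5 * B ^ 5 + (-5705700) * X ^ 3 * Y * A ^ 6 * B ^ 4 + 14671800 * X ^ 3 * Y * A ^ 7 * B ^ 3
    + (-14671800) * X ^ 3 * Y * A ^ 8 * B ^ 2 + 5705700 * X ^ 3 * Y * A ^ 9 * B + (-684684) * X ^ 3 * Y * A ^ 10 + 494 * X ^ 2 * Y ^ 2 * B ^ 10
    + (-49400) * X ^ 2 * Y ^ 2 * A * B ^ 9 + 1000350 * X ^ 2 * Y ^ 2 * A ^ 2 * B ^ 8 + (-7113600) * X ^ 2 * Y ^ 2 * A ^ 3 * B ^ 7 + 21785400 * X ^ 2 * Y ^ 2 * A ^ 4 * B ^ 6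
    + (-31370976) * X ^ 2 * Y ^ 2 * A ^ 5 * B ^ 5 + 21785400 * X ^ 2 * Y ^ 2 * A ^ 6 * B ^ 4 + (-7113600) * X ^ 2 * Y ^ 2 * A ^ 7 * B ^ 3 + 1000350 * X ^ 2 * Y ^ 2 * A ^ 8 * B ^ 2
    + (-49400) * X ^ 2 * Y ^ 2 * A ^ 9 * B + 494 * X ^ 2 * Y ^ 2 * A ^ 10 + 684684 * X * Y ^ 3 * B ^ 10 + (-5705700) * X * Y ^ 3 * A * B ^ 9
    + 14671800 * X * Y ^ 3 * A ^ 2 * B ^ 8 + (-14671800) * X * Y ^ 3 * A ^ 3 * B ^ 7 + 5705700 * X * Y ^ 3 * A ^ 4 * B ^ 6 + (-684684) * X * Y ^ 3 * A ^ 5 * B ^ 5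
    + 184756 * Y ^ 4 * B ^ 10

/-- coefficient of `n ^ 11 * m ^ 9` in `eta (X (m + n A)⁵) (Y (m - n B)⁵)`. -/
def famHc11 (X Y A B : R) : R :=
  167960 * X ^ 4 * A ^ 11 + 1141140 * X ^ 3 * Y * A ^ 6 * B ^ 5 + (-7335900) * X ^ 3 * Y * A ^ 7 * B ^ 4 + 14671800 * X ^ 3 * Y * A ^ 8 * B ^ 3
    + (-11411400) * X ^ 3 * Y * A ^ 9 * B ^ 2 + 3423420 * X ^ 3 * Y * A ^ 10 * B + (-311220) * X ^ 3 * Y * A ^ 11 + 4940 * X ^ 2 * Y ^ 2 * A * B ^ 10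
    + (-222300) * X ^ 2 * Y ^ 2 * A ^ 2 * B ^ 9 + 2667600 * X ^ 2 * Y ^ 2 * A ^ 3 * B ^ 8 + (-12448800) * X ^ 2 * Y ^ 2 * A ^ 4 * B ^ 7 + 26142480 * X ^ 2 * Y ^ 2 * A ^ 5 * B ^ 6
    + (-26142480) * X ^ 2 * Y ^ 2 * A ^ 6 * B ^ 5 + 12448800 * X ^ 2 * Y ^ 2 * A ^ 7 * B ^ 4 + (-2667600) * X ^ 2 * Y ^ 2 * A ^ 8 * B ^ 3 + 222300 * X ^ 2 * Y ^ 2 * A ^ 9 * B ^ 2
    + (-4940) * X ^ 2 * Y ^ 2 * A ^ 10 * B + (-311220) * X * Y ^ 3 * B ^ 11 + 3423420 * X * Y ^ 3 * A * B ^ 10 + (-11411400) * X * Y ^ 3 * A ^ 2 * B ^ 9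
    + 14671800 * X * Y ^ 3 * A ^ 3 * B ^ 8 + (-7335900) * X * Y ^ 3 * A ^ 4 * B ^ 7 + 1141140 * X * Y ^ 3 * A ^ 5 * B ^ 6 + (-167960) * Y ^ 4 * B ^ 11

/-- coefficient of `n ^ 12 * m ^ 8` in `eta (X (m + n A)⁵) (Y (m - n B)⁵)`. -/
def famHc12 (X Y A B : R) : R :=
  125970 * X ^ 4 * A ^ 12 + 1467180 * X ^ 3 * Y * A ^ 7 * B ^ 5 + (-7335900) * X ^ 3 * Y * A ^ 8 * B ^ 4 + 11411400 * X ^ 3 * Y * A ^ 9 * B ^ 3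
    + (-6846840) * X ^ 3 * Y * A ^ 10 * B ^ 2 + 1556100 * X ^ 3 * Y * A ^ 11 * B + (-103740) * X ^ 3 * Y * A ^ 12 + 22230 * X ^ 2 * Y ^ 2 * A ^ 2 * B ^ 10
    + (-592800) * X ^ 2 * Y ^ 2 * A ^ 3 * B ^ 9 + 4668300 * X ^ 2 * Y ^ 2 * A ^ 4 * B ^ 8 + (-14938560) * X ^ 2 * Y ^ 2 * A ^ 5 * B ^ 7 + 21785400 * X ^ 2 * Y ^ 2 * A ^ 6 * B ^ 6
    + (-14938560) * X ^ 2 * Y ^ 2 * A ^ 7 * B ^ 5 + 4668300 * X ^ 2 * Y ^ 2 * A ^ 8 * B ^ 4 + (-592800) * X ^ 2 * Y ^ 2 * A ^ 9 * B ^ 3 + 22230 * X ^ 2 * Y ^ 2 * A ^ 10 * B ^ 2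
    + 103740 * X * Y ^ 3 * B ^ 12 + (-1556100) * X * Y ^ 3 * A * B ^ 11 + 6846840 * X * Y ^ 3 * A ^ 2 * B ^ 10 + (-11411400) * X * Y ^ 3 * A ^ 3 * B ^ 9
    + 7335900 * X * Y ^ 3 * A ^ 4 * B ^ 8 + (-1467180) * X * Y ^ 3 * A ^ 5 * B ^ 7 + 125970 * Y ^ 4 * B ^ 12

/-- coefficient of `n ^ 13 * m ^ 7` in `eta (X (m + n A)⁵) (Y (m - n B)⁵)`. -/
def famHc13 (X Y A B : R) : R :=
  77520 * X ^ 4 * A ^ 13 + 1467180 * X ^ 3 * Y * A ^ 8 * B ^ 5 + (-5705700) * X ^ 3 * Y * A ^ 9 * B ^ 4 + 6846840 * X ^ 3 * Y * A ^ 10 * B ^ 3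
    + (-3112200) * X ^ 3 * Y * A ^ 11 * B ^ 2 + 518700 * X ^ 3 * Y * A ^ 12 * B + (-23940) * X ^ 3 * Y * A ^ 13 + 59280 * X ^ 2 * Y ^ 2 * A ^ 3 * B ^ 10
    + (-1037400) * X ^ 2 * Y ^ 2 * A ^ 4 * B ^ 9 + 5601960 * X ^ 2 * Y ^ 2 * A ^ 5 * B ^ 8 + (-12448800) * X ^ 2 * Y ^ 2 * A ^ 6 * B ^ 7 + 12448800 * X ^ 2 * Y ^ 2 * A ^ 7 * B ^ 6
    + (-5601960) * X ^ 2 * Y ^ 2 * A ^ 8 * B ^ 5 + 1037400 * X ^ 2 * Y ^ 2 * A ^ 9 * B ^ 4 + (-59280) * X ^ 2 * Y ^ 2 * A ^ 10 * B ^ 3 + (-23940) * X * Y ^ 3 * B ^ 13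
    + 518700 * X * Y ^ 3 * A * B ^ 12 + (-3112200) * X * Y ^ 3 * A ^ 2 * B ^ 11 + 6846840 * X * Y ^ 3 * A ^ 3 * B ^ 10 + (-5705700) * X * Y ^ 3 * A ^ 4 * B ^ 9
    + 1467180 * X * Y ^ 3 * A ^ 5 * B ^ 8 + (-77520) * Y ^ 4 * B ^ 13

/-- coefficient of `n ^ 14 * m ^ 6` in `eta (X (m + n A)⁵) (Y (m - n B)⁵)`. -/
def famHc14 (X Y A B : R) : R :=
  38760 * X ^ 4 * A ^ 14 + 1141140 * X ^ 3 * Y * A ^ 9 * B ^ 5 + (-3423420) * X ^ 3 * Y * A ^ 10 * B ^ 4 + 3112200 * X ^ 3 * Y * A ^ 11 * B ^ 3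
    + (-1037400) * X ^ 3 * Y * A ^ 12 * B ^ 2 + 119700 * X ^ 3 * Y * A ^ 13 * B + (-3420) * X ^ 3 * Y * A ^ 14 + 103740 * X ^ 2 * Y ^ 2 * A ^ 4 * B ^ 10
    + (-1244880) * X ^ 2 * Y ^ 2 * A ^ 5 * B ^ 9 + 4668300 * X ^ 2 * Y ^ 2 * A ^ 6 * B ^ 8 + (-7113600) * X ^ 2 * Y ^ 2 * A ^ 7 * B ^ 7 + 4668300 * X ^ 2 * Y ^ 2 * A ^ 8 * B ^ 6
    + (-1244880) * X ^ 2 * Y ^ 2 * A ^ 9 * B ^ 5 + 103740 * X ^ 2 * Y ^ 2 * A ^ 10 * B ^ 4 + 3420 * X * Y ^ 3 * B ^ 14 + (-119700) * X * Y ^ 3 * A * B ^ 13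
    + 1037400 * X * Y ^ 3 * A ^ 2 * B ^ 12 + (-3112200) * X * Y ^ 3 * A ^ 3 * B ^ 11 + 3423420 * X * Y ^ 3 * A ^ 4 * B ^ 10 + (-1141140) * X * Y ^ 3 * A ^ 5 * B ^ 9
    + 38760 * Y ^ 4 * B ^ 14

/-- coefficient of `n ^ 15 * m ^ 5` in `eta (X (m + n A)⁵) (Y (m - n B)⁵)`. -/
def famHc15 (X Y A B : R) : R :=
  15504 * X ^ 4 * A ^ 15 + 684684 * X ^ 3 * Y * A ^ 10 * B ^ 5 + (-1556100) * X ^ 3 * Y * A ^ 11 * B ^ 4 + 1037400 * X ^ 3 * Y * A ^ 12 * B ^ 3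
    + (-239400) * X ^ 3 * Y * A ^ 13 * B ^ 2 + 17100 * X ^ 3 * Y * A ^ 14 * B + (-228) * X ^ 3 * Y * A ^ 15 + 124488 * X ^ 2 * Y ^ 2 * A ^ 5 * B ^ 10
    + (-1037400) * X ^ 2 * Y ^ 2 * A ^ 6 * B ^ 9 + 2667600 * X ^ 2 * Y ^ 2 * A ^ 7 * B ^ 8 + (-2667600) * X ^ 2 * Y ^ 2 * A ^ 8 * B ^ 7 + 1037400 * X ^ 2 * Y ^ 2 * A ^ 9 * B ^ 6
    + (-124488) * X ^ 2 * Y ^ 2 * A ^ 10 * B ^ 5 + (-228) * X * Y ^ 3 * B ^ 15 + 17100 * X * Y ^ 3 * A * B ^ 14 + (-239400) * X * Y ^ 3 * A ^ 2 * B ^ 13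
    + 1037400 * X * Y ^ 3 * A ^ 3 * B ^ 12 + (-1556100) * X * Y ^ 3 * A ^ 4 * B ^ 11 + 684684 * X * Y ^ 3 * A ^ 5 * B ^ 10 + (-15504) * Y ^ 4 * B ^ 15

/-- coefficient of `n ^ 16 * m ^ 4` in `eta (X (m + n A)⁵) (Y (m - n B)⁵)`. -/
def famHc16 (X Y A B : R) : R :=
  4845 * X ^ 4 * A ^ 16 + 311220 * X ^ 3 * Y * A ^ 11 * B ^ 5 + (-518700) * X ^ 3 * Y * A ^ 12 * B ^ 4 + 239400 * X ^ 3 * Y * A ^ 13 * B ^ 3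
    + (-34200) * X ^ 3 * Y * A ^ 14 * B ^ 2 + 1140 * X ^ 3 * Y * A ^ 15 * B + 103740 * X ^ 2 * Y ^ 2 * A ^ 6 * B ^ 10 + (-592800) * X ^ 2 * Y ^ 2 * A ^ 7 * B ^ 9
    + 1000350 * X ^ 2 * Y ^ 2 * A ^ 8 * B ^ 8 + (-592800) * X ^ 2 * Y ^ 2 * A ^ 9 * B ^ 7 + 103740 * X ^ 2 * Y ^ 2 * A ^ 10 * B ^ 6 + (-1140) * X * Y ^ 3 * A * B ^ 15
    + 34200 * X * Y ^ 3 * A ^ 2 * B ^ 14 + (-239400) * X * Y ^ 3 * A ^ 3 * B ^ 13 + 518700 * X * Y ^ 3 * A ^ 4 * B ^ 12 + (-311220) * X * Y ^ 3 * A ^ 5 * B ^ 11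
    + 4845 * Y ^ 4 * B ^ 16

/-- coefficient of `n ^ 17 * m ^ 3` in `eta (X (m + n A)⁵) (Y (m - n B)⁵)`. -/
def famHc17 (X Y A B : R) : R :=
  1140 * X ^ 4 * A ^ 17 + 103740 * X ^ 3 * Y * A ^ 12 * B ^ 5 + (-119700) * X ^ 3 * Y * A ^ 13 * B ^ 4 + 34200 * X ^ 3 * Y * A ^ 14 * B ^ 3
    + (-2280) * X ^ 3 * Y * A ^ 15 * B ^ 2 + 59280 * X ^ 2 * Y ^ 2 * A ^ 7 * B ^ 10 + (-222300) * X ^ 2 * Y ^ 2 * A ^ 8 * B ^ 9 + 222300 * X ^ 2 * Y ^ 2 * A ^ 9 * B ^ 8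
    + (-59280) * X ^ 2 * Y ^ 2 * A ^ 10 * B ^ 7 + (-2280) * X * Y ^ 3 * A ^ 2 * B ^ 15 + 34200 * X * Y ^ 3 * A ^ 3 * B ^ 14 + (-119700) * X * Y ^ 3 * A ^ 4 * B ^ 13
    + 103740 * X * Y ^ 3 * A ^ 5 * B ^ 12 + (-1140) * Y ^ 4 * B ^ 17

/-- coefficient of `n ^ 18 * m ^ 2` in `eta (X (m + n A)⁵) (Y (m - n B)⁵)`. -/
def famHc18 (X Y A B : R) : R :=
  190 * X ^ 4 * A ^ 18 + 23940 * X ^ 3 * Y * A ^ 13 * B ^ 5 + (-17100) * X ^ 3 * Y * A ^ 14 * B ^ 4 + 2280 * X ^ 3 * Y * A ^ 15 * B ^ 3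
    + 22230 * X ^ 2 * Y ^ 2 * A ^ 8 * B ^ 10 + (-49400) * X ^ 2 * Y ^ 2 * A ^ 9 * B ^ 9 + 22230 * X ^ 2 * Y ^ 2 * A ^ 10 * B ^ 8 + (-2280) * X * Y ^ 3 * A ^ 3 * B ^ 15
    + 17100 * X * Y ^ 3 * A ^ 4 * B ^ 14 + (-23940) * X * Y ^ 3 * A ^ 5 * B ^ 13 + 190 * Y ^ 4 * B ^ 18

/-- coefficient of `n ^ 19 * m ^ 1` in `eta (X (m + n A)⁵) (Y (m - n B)⁵)`. -/
def famHc19 (X Y A B : R) : R :=
  20 * X ^ 4 * A ^ 19 + 3420 * X ^ 3 * Y * A ^ 14 * B ^ 5 + (-1140) * X ^ 3 * Y * A ^ 15 * B ^ 4 + 4940 * X ^ 2 * Y ^ 2 * A ^ 9 * B ^ 10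
    + (-4940) * X ^ 2 * Y ^ 2 * A ^ 10 * B ^ 9 + (-1140) * X * Y ^ 3 * A ^ 4 * B ^ 15 + 3420 * X * Y ^ 3 * A ^ 5 * B ^ 14 + (-20) * Y ^ 4 * B ^ 19

/-- coefficient of `n ^ 20 * m ^ 0` in `eta (X (m + n A)⁵) (Y (m - n B)⁵)`. -/
def famHc20 (X Y A B : R) : R :=
  1 * X ^ 4 * A ^ 20 + 228 * X ^ 3 * Y * A ^ 15 * B ^ 5 + 494 * X ^ 2 * Y ^ 2 * A ^ 10 * B ^ 10 + (-228) * X * Y ^ 3 * A ^ 5 * B ^ 15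
    + 1 * Y ^ 4 * B ^ 20

/-- The binomial expansion, with `kA`, `kB` replaced by indeterminates. -/
theorem famH_lin (X Y m n A B : R) :
    eta (X * (m + n * A) ^ 5) (Y * (m - n * B) ^ 5) =
      famHc0 X Y A B * m ^ 20 + famHc1 X Y A B * n * m ^ 19 + famHc2 X Y A B * n ^ 2 * m ^ 18 + famHc3 X Y A B * n ^ 3 * m ^ 17
        + famHc4 X Y A B * n ^ 4 * m ^ 16 + famHc5 X Y A B * n ^ 5 * m ^ 15 + famHc6 X Y A B * n ^ 6 * m ^ 14 + famHc7 X Y A B * n ^ 7 * m ^ 13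
        + famHc8 X Y A B * n ^ 8 * m ^ 12 + famHc9 X Y A B * n ^ 9 * m ^ 11 + famHc10 X Y A B * n ^ 10 * m ^ 10 + famHc11 X Y A B * n ^ 11 * m ^ 9
        + famHc12 X Y A B * n ^ 12 * m ^ 8 + famHc13 X Y A B * n ^ 13 * m ^ 7 + famHc14 X Y A B * n ^ 14 * m ^ 6 + famHc15 X Y A B * n ^ 15 * m ^ 5
        + famHc16 X Y A B * n ^ 16 * m ^ 4 + famHc17 X Y A B * n ^ 17 * m ^ 3 + famHc18 X Y A B * n ^ 18 * m ^ 2 + famHc19 X Y A B * n ^ 19 * m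
        + famHc20 X Y A B * n ^ 20 := by
  unfold eta famHc0 famHc1 famHc2 famHc3 famHc4 famHc5 famHc6 famHc7 famHc8 famHc9 famHc10 famHc11 famHc12 famHc13 famHc14 famHc15 famHc16 famHc17 famHc18 famHc19 famHc20
  ring

theorem famHc0_eq (X Y : R) :
    famHc0 X Y (kA X Y) (kB X Y) = gh0 (eta X Y) (theta X Y) := by
  simp only [famHc0, gh0, eta, theta, kA, kB]
  ring

theorem famHc1_eq (X Y : R) :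
    famHc1 X Y (kA X Y) (kB X Y) = gh1 (eta X Y) (theta X Y) := by
  simp only [famHc1, gh1, eta, theta, kA, kB]
  ring

theorem famHc2_eq (X Y : R) :
    famHc2 X Y (kA X Y) (kB X Y) = gh2 (eta X Y) (theta X Y) := by
  simp only [famHc2, gh2, eta, theta, kA, kB]
  ring

theorem famHc3_eq (X Y : R) :
    famHc3 X Y (kA X Y) (kB X Y) = gh3 (eta X Y) (theta X Y) := by
  simp only [famHc3, gh3, eta, theta, kA, kB]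
  ring

theorem famHc4_eq (X Y : R) :
    famHc4 X Y (kA X Y) (kB X Y) = gh4 (eta X Y) (theta X Y) := by
  simp only [famHc4, gh4, eta, theta, kA, kB]
  ring

theorem famHc5_eq (X Y : R) :
    famHc5 X Y (kA X Y) (kB X Y) = gh5 (eta X Y) (theta X Y) := by
  simp only [famHc5, gh5, eta, theta, kA, kB]
  ring

theorem famHc6_eq (X Y : R) :
    famHc6 X Y (kA X Y) (kB X Y) = gh6 (eta X Y) (theta X Y) := by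
  simp only [famHc6, gh6, eta, theta, kA, kB]
  ring

theorem famHc7_eq (X Y : R) :
    famHc7 X Y (kA X Y) (kB X Y) = gh7 (eta X Y) (theta X Y) := by
  simp only [famHc7, gh7, eta, theta, kA, kB]
  ring

theorem famHc8_eq (X Y : R) :
    famHc8 X Y (kA X Y) (kB X Y) = gh8 (eta X Y) (theta X Y) := by
  simp only [famHc8, gh8, eta, theta, kA, kB]
  ring

theorem famHc9_eq (X Y : R) :
    famHc9 X Y (kA X Y) (kB X Y) = gh9 (eta X Y) (theta X Y) := by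
  simp only [famHc9, gh9, eta, theta, kA, kB]
  ring

theorem famHc10_eq (X Y : R) :
    famHc10 X Y (kA X Y) (kB X Y) = gh10 (eta X Y) (theta X Y) := by
  simp only [famHc10, gh10, eta, theta, kA, kB]
  ring

theorem famHc11_eq (X Y : R) :
    famHc11 X Y (kA X Y) (kB X Y) = gh11 (eta X Y) (theta X Y) := by
  simp only [famHc11, gh11, eta, theta, kA, kB]
  ring

theorem famHc12_eq (X Y : R) :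
    famHc12 X Y (kA X Y) (kB X Y) = gh12 (eta X Y) (theta X Y) := by
  simp only [famHc12, gh12, eta, theta, kA, kB]
  ring

theorem famHc13_eq (X Y : R) :
    famHc13 X Y (kA X Y) (kB X Y) = gh13 (eta X Y) (theta X Y) := by
  simp only [famHc13, gh13, eta, theta, kA, kB]
  ring

theorem famHc14_eq (X Y : R) :
    famHc14 X Y (kA X Y) (kB X Y) = gh14 (eta X Y) (theta X Y) := by
  simp only [famHc14, gh14, eta, theta, kA, kB]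
  ring

theorem famHc15_eq (X Y : R) :
    famHc15 X Y (kA X Y) (kB X Y) = gh15 (eta X Y) (theta X Y) := by
  simp only [famHc15, gh15, eta, theta, kA, kB]
  ring

theorem famHc16_eq (X Y : R) :
    famHc16 X Y (kA X Y) (kB X Y) = gh16 (eta X Y) (theta X Y) := by
  simp only [famHc16, gh16, eta, theta, kA, kB]
  ring

theorem famHc17_eq (X Y : R) :
    famHc17 X Y (kA X Y) (kB X Y) = gh17 (eta X Y) (theta X Y) := by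
  simp only [famHc17, gh17, eta, theta, kA, kB]
  ring

theorem famHc18_eq (X Y : R) :
    famHc18 X Y (kA X Y) (kB X Y) = gh18 (eta X Y) (theta X Y) := by
  simp only [famHc18, gh18, eta, theta, kA, kB]
  ring

theorem famHc19_eq (X Y : R) :
    famHc19 X Y (kA X Y) (kB X Y) = gh19 (eta X Y) (theta X Y) := by
  simp only [famHc19, gh19, eta, theta, kA, kB]
  ring

theorem famHc20_eq (X Y : R) :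
    famHc20 X Y (kA X Y) (kB X Y) = gh20 (eta X Y) (theta X Y) := by
  simp only [famHc20, gh20, eta, theta, kA, kB]
  ring

/-- `H(m u₀ + n w) = famH (H u₀) (T u₀) m n`, in `X = x₀⁵`, `Y = y₀⁵`. -/
theorem famH_eq (X Y m n : R) :
    eta (X * (m + n * kA X Y) ^ 5) (Y * (m - n * kB X Y) ^ 5) =
      famH (eta X Y) (theta X Y) m n := by
  unfold famH
  rw [famH_lin X Y m n (kA X Y) (kB X Y), famHc0_eq, famHc1_eq, famHc2_eq, famHc3_eq, famHc4_eq, famHc5_eq, famHc6_eq, famHc7_eq, famHc8_eq, famHc9_eq, famHc10_eq, famHc11_eq, famHc12_eq, famHc13_eq, famHc14_eq, famHc15_eq, famHc16_eq, famHc17_eq, famHc18_eq, famHc19_eq, famHc20_eq]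

end Fermat.Agent.S52P.Klein
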