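/-
S52P / Klein data: the syzygy of the family, `famH³ - famT² = (e³ - h²) famD⁵` (one `ring`, about 3 minutes).
Machine-generated by helper23 (exact integer arithmetic, script-checked before Lean).
-/
import Mathlib
import Fermat.Agent.S52P.Klein.Defs

set_option autoImplicit false
set_option maxHeartbeats 0
set_option maxRecDepth 20000

namespace Fermat.Agent.S52P.Klein

variable {R : Type*} [CommRing R]

theorem fam_syzygy (e h m n : R) :
    famH e h m n ^ 3 - famT e h m n ^ 2 = (e ^ 3 - h ^ 2) * famD e h m n ^ 5 := by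
  unfold famH famT famD gh0 gh1 gh2 gh3 gh4 gh5 gh6 gh7 gh8 gh9 gh10 gh11 gh12 gh13 gh14 gh15 gh16 gh17 gh18 gh19 gh20 gt0 gt1 gt2 gt3 gt4 gt5 gt6 gt7 gt8 gt9 gt10 gt11 gt12 gt13 gt14 gt15 gt16 gt17 gt18 gt19 gt20 gt21 gt22 gt23 gt24 gt25 gt26 gt27 gt28 gt29 gt30 gd0 gd1 gd2 gd3 gd4 gd5 gd6 gd7 gd8 gd9 gd10 gd11 gd12; ring

end Fermat.Agent.S52P.Klein
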