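/-
S52P / Klein data: the expansion of `T` along the line `m u₀ + n w`, deduced from `famH_eq`, `famD_eq`,
`fam_syzygy` and the syzygy (the squares agree in every commutative ring; in the domain
`MvPolynomial (Fin 4) ℤ` the sign is fixed by one evaluation; then specialise).  The `map_*` lemmas
and the values at `n = 0` are in `Klein/FamMap.lean`.  (helper23)
-/
import Mathlib
import Fermat.Agent.S52P.Klein.Defs
import Fermat.Agent.S52P.Klein.Basic
import Fermat.Agent.S52P.Klein.FamH
import Fermat.Agent.S52P.Klein.FamD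
import Fermat.Agent.S52P.Klein.FamSyz
import Fermat.Agent.S52P.Klein.FamMap

set_option autoImplicit false
set_option maxHeartbeats 0
set_option maxRecDepth 20000

namespace Fermat.Agent.S52P.Klein

variable {R : Type*} [CommRing R]

/-- The squares of `T(m u₀ + n w)` and of `famT` agree (any commutative ring). -/
theorem famT_sq (X Y m n : R) :
    theta (X * (m + n * kA X Y) ^ 5) (Y * (m - n * kB X Y) ^ 5) ^ 2 =
      famT (eta X Y) (theta X Y) m n ^ 2 := by
  have h1 := syzygy (X * (m + n * kA X Y) ^ 5) (Y * (m - n * kB X Y) ^ 5)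
  rw [famH_eq X Y m n] at h1
  have h4 := fam_syzygy (eta X Y) (theta X Y) m n
  have h5 := syzygy X Y
  have h6 : X * (m + n * kA X Y) ^ 5 * (Y * (m - n * kB X Y) ^ 5) *
      phi (X * (m + n * kA X Y) ^ 5) (Y * (m - n * kB X Y) ^ 5) ^ 5 =
        X * Y * (phi X Y * famD (eta X Y) (theta X Y) m n) ^ 5 := by
    rw [← famD_eq X Y m n]; ring
  linear_combination (-1 : R) * h1 + 1728 * h6 + h4 + famD (eta X Y) (theta X Y) m n ^ 5 * h5

open MvPolynomial in
/-- The universal case (`MvPolynomial (Fin 4) ℤ` is a domain; evaluate at `(0, 1, 1, 0)`). -/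
theorem famT_eq_univ :
    theta ((X 0 : MvPolynomial (Fin 4) ℤ) * (X 2 + X 3 * kA (X 0) (X 1)) ^ 5)
        (X 1 * (X 2 - X 3 * kB (X 0) (X 1)) ^ 5) =
      famT (eta (X 0) (X 1)) (theta (X 0) (X 1)) (X 2) (X 3) := by
  have hsq := famT_sq (X 0 : MvPolynomial (Fin 4) ℤ) (X 1) (X 2) (X 3)
  rcases sq_eq_sq_iff_eq_or_eq_neg.mp hsq with h | h
  · exact h
  · exfalso
    have h' := congrArg (MvPolynomial.eval (![0, 1, 1, 0] : Fin 4 → ℤ)) h
    rw [map_neg] at h'
    simp only [map_theta, map_famT, map_eta, map_kA, map_kB, map_mul, map_add, map_sub, map_pow,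
      MvPolynomial.eval_X] at h'
    simp only [Matrix.cons_val_zero, Matrix.cons_val_one, Matrix.cons_val] at h'
    rw [famT_zero] at h'
    norm_num [theta, eta] at h'

/-- `T(m u₀ + n w) = famT (H u₀) (T u₀) m n`, in `X = x₀⁵`, `Y = y₀⁵`. -/
theorem famT_eq (X Y m n : R) :
    theta (X * (m + n * kA X Y) ^ 5) (Y * (m - n * kB X Y) ^ 5) =
      famT (eta X Y) (theta X Y) m n := by
  have h := congrArg (MvPolynomial.eval₂Hom (Int.castRingHom R) (![X, Y, m, n] : Fin 4 → R))
    famT_eq_univ
  simp only [map_theta, map_famT, map_eta, map_kA, map_kB, map_mul, map_add, map_sub, map_pow,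
    MvPolynomial.eval₂Hom_X'] at h
  simpa using h

end Fermat.Agent.S52P.Klein
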