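/-
S52P / Klein data: the expansion of `f` along the line `m u₀ + n w` (one `ring`, about 1 minute).
Machine-generated by helper23 (exact integer arithmetic, script-checked before Lean).
-/
import Mathlib
import Fermat.Agent.S52P.Klein.Defs

set_option autoImplicit false
set_option maxHeartbeats 0
set_option maxRecDepth 20000

namespace Fermat.Agent.S52P.Klein

variable {R : Type*} [CommRing R]

/-- `f(m u₀ + n w) = f(u₀) * famD (H u₀) (T u₀) m n` (divided by `x₀ y₀`). -/
theorem famD_eq (X Y m n : R) :
    (m + n * kA X Y) * (m - n * kB X Y) *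
        phi (X * (m + n * kA X Y) ^ 5) (Y * (m - n * kB X Y) ^ 5) =
      phi X Y * famD (eta X Y) (theta X Y) m n := by
  unfold famD gd0 gd1 gd2 gd3 gd4 gd5 gd6 gd7 gd8 gd9 gd10 gd11 gd12 eta theta phi kA kB; ring

end Fermat.Agent.S52P.Klein
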